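import Fermat.Agent.DS.K.Endgame
import Fermat.Agent.DS.CT.Main
import Fermat.Agent.DS.B.Spec
import Fermat.Agent.DS.B.Export
import Fermat.Agent.DS.H.TopKDef
import Fermat.Agent.DS.I.Adapt
import Fermat.Agent.DS.J.Adapt

/-!
# Program DS (S48, Deligne–Serre): TOP.  The frozen statement S48 from the single black box
`DsBB1` (= the export of package (C)).  Integration file (helper21): nothing but the wiring of
the producers of packages B, CT, H, I, J into `ds_S48_of_blackboxes` (package K).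
-/

set_option autoImplicit false

open CongruenceSubgroup
open scoped MatrixGroups

namespace Fermat.Agent.DS

local notation "Γℚ" => (AlgebraicClosure ℚ ≃ₐ[ℚ] AlgebraicClosure ℚ)

/-- adaptor: helper6's `ds_residual_exists` (kernel of `φ` is `Λ`) gives helper17's
`DsResidualExists` (kernel of `φ` agrees with `Λ` on the coefficient field). -/
theorem dstop_residualExists (hBB1 : DsBB1) {N : ℕ} [NeZero N] {ε : DirichletCharacter ℂ N}
    {f : CuspForm (Gamma1 N) 1} (h : DsEigen N ε f) :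
    DsResidualExists N (fun n => ModularFormClass.qCoeff f n) (fun n => ε (n : ZMod N))
      (dsField N ε f) := by
  obtain ⟨B₀, hB⟩ := ds_residual_exists hBB1 h
  refine ⟨B₀, fun ℓ hℓ hlt hnd Λ hΛ hmem => ?_⟩
  obtain ⟨k, i1, i2, φ, hker, ρ, h1, h2⟩ := hB ℓ hℓ hlt hnd Λ hΛ hmem
  exact ⟨k, i1, i2, φ, fun z _ => by rw [← hker]; rfl, ρ, h1, h2⟩

/-- **S48 from BB1.** -/
theorem ds_S48_of_BB1 (hBB1 : DsBB1)
    (N : ℕ) [NeZero N] (ε : DirichletCharacter ℂ N) (f : CuspForm (Gamma1 N) 1)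
    (hf₁ : ModularFormClass.qCoeff f 1 = 1)
    (hT : ∀ p : ℕ, p.Prime → ¬ p ∣ N → ∀ n : ℕ,
        ModularFormClass.qCoeff f (p * n) +
            ε (p : ZMod N) * (if p ∣ n then ModularFormClass.qCoeff f (n / p) else 0) =
          ModularFormClass.qCoeff f p * ModularFormClass.qCoeff f n) :
    ∃ ρ : Γℚ →* GL (Fin 2) ℂ, GaloisFactorsThroughFiniteLevel ρ ∧
      (Deformation.matrixRepresentation ρ).IsIrreducible ∧
      ∀ p : ℕ, p.Prime → ¬ p ∣ N →
        ∀ A : ValuationSubring (AlgebraicClosure ℚ), A.LiesOverPrime p →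
          (∀ σ ∈ A.inertiaSubgroupIn ℚ, ρ σ = 1) ∧
          ∀ σ : Γℚ, A.IsFrobeniusAt σ p →
            ((ρ σ : GL (Fin 2) ℂ) : Matrix (Fin 2) (Fin 2) ℂ).trace = ModularFormClass.qCoeff f p ∧
            ((ρ σ : GL (Fin 2) ℂ) : Matrix (Fin 2) (Fin 2) ℂ).det = ε (p : ZMod N) :=
  ds_S48_of_blackboxes N ε f
    ⟨dsField N ε f, ds_coeffField ⟨hf₁, hT⟩, fun p => ds_eps_mem_field N ε f _,
      dstop_residualExists hBB1 ⟨hf₁, hT⟩⟩
    dsh_DsChebotarev_holds (fun η M h0 h => dsi_prop72_set η M h0 h)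
    (fun ℓ _ h2 Λ hΛ hℓ ρb hc => dsj_lift_galois ℓ h2 Λ hΛ hℓ ρb hc)

end Fermat.Agent.DS
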